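import Mathlib

/-!
# S15-ATP, abstract layer, file `Ufd`: in a UFD, a fraction all of whose orders are divisible by `n` is a unit times an
`n`-th power

For every irreducible `π`: `n ord_π a' + ord_π a = n ord_π b' + ord_π b`, so `ord_π a ≡ ord_π b (mod n)`.
`u := ∏ π ^ ((ord_π a - ord_π b) / n)` over the `π` with `ord_π a > ord_π b`, `v` symmetrically (product over
`normalizedFactors (a * b)` / `Associates.factors`, or induction on the number of prime factors of `a * b`: if `π ∣ a` and
`π ∣ b` cancel `π`; if `π ∣ a`, `π ∤ b` then `π ^ n ∣ a`: write `a = π ^ n a₁` ...).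

Proof used here: `x := a * b ^ (n - 1)` has all its orders divisible by `n`, so `x = e * w ^ n`
(`Ufd_eq_unit_mul_pow`, well-founded induction on strict divisibility); take `v = b`, `u = w`.
-/

set_option autoImplicit false

namespace Fermat.Agent.S15.ATP

/-- an element all of whose orders are divisible by `n` is a unit times an `n`-th power. -/
theorem Ufd_eq_unit_mul_pow {D : Type*} [CommRing D] [IsDomain D] [UniqueFactorizationMonoid D]
    {n : ℕ} (hn : 0 < n) (x : D) (hx : x ≠ 0)
    (h : ∀ π : D, Irreducible π → n ∣ multiplicity π x) :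
    ∃ e w : D, IsUnit e ∧ w ≠ 0 ∧ x = e * w ^ n := by
  revert hx h
  refine (wellFounded_dvdNotUnit (α := D)).induction
    (C := fun x => x ≠ 0 → (∀ π : D, Irreducible π → n ∣ multiplicity π x) →
      ∃ e w : D, IsUnit e ∧ w ≠ 0 ∧ x = e * w ^ n) x ?_
  · intro x ih hx h
    by_cases hu : IsUnit x
    · exact ⟨x, 1, hu, one_ne_zero, by rw [one_pow, mul_one]⟩
    obtain ⟨π, hπ, hπx⟩ := WfDvdMonoid.exists_irreducible_factor hu hx
    have hπp : Prime π := UniqueFactorizationMonoid.irreducible_iff_prime.1 hπ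
    have hpos : 0 < multiplicity π x := multiplicity_pos_of_dvd hπx
    have hle : n ≤ multiplicity π x := Nat.le_of_dvd hpos (h π hπ)
    obtain ⟨y, rfl⟩ := pow_dvd_of_le_multiplicity hle
    have hy : y ≠ 0 := right_ne_zero_of_mul hx
    have hnu : ¬ IsUnit (π ^ n) := fun h1 => hπ.not_isUnit (isUnit_of_dvd_unit (dvd_pow_self π hn.ne') h1)
    have hlt : DvdNotUnit y (π ^ n * y) := ⟨hy, π ^ n, hnu, mul_comm _ _⟩
    obtain ⟨e, w, he, hw, rfl⟩ := ih y hlt hy (by
      intro π' hπ'
      have hπ'p : Prime π' := UniqueFactorizationMonoid.irreducible_iff_prime.1 hπ'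
      have h1 := h π' hπ'
      rw [multiplicity_mul hπ'p (FiniteMultiplicity.of_prime_left hπ'p hx),
        FiniteMultiplicity.multiplicity_pow hπ'p
          (FiniteMultiplicity.of_prime_left hπ'p hπ.ne_zero)] at h1
      exact (Nat.dvd_add_right (Dvd.intro _ rfl)).1 h1)
    exact ⟨e, π * w, he, mul_ne_zero hπ.ne_zero hw, by rw [mul_pow]; ring⟩

theorem ufd_ratio_pow {D : Type*} [CommRing D] [IsDomain D] [UniqueFactorizationMonoid D] {n : ℕ}
    (hn : 0 < n) {a b : D} (ha : a ≠ 0) (hb : b ≠ 0)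
    (h : ∀ π : D, Irreducible π → ∃ a' b' c : D, a' ≠ 0 ∧ b' ≠ 0 ∧ ¬ π ∣ c ∧
      a' ^ n * a = c * (b' ^ n * b)) :
    ∃ u v e : D, u ≠ 0 ∧ v ≠ 0 ∧ IsUnit e ∧ v ^ n * a = e * (u ^ n * b) := by
  obtain ⟨m, rfl⟩ : ∃ m, n = m + 1 := ⟨n - 1, by omega⟩
  have hx : a * b ^ m ≠ 0 := mul_ne_zero ha (pow_ne_zero m hb)
  obtain ⟨e, w, he, hw, hew⟩ := Ufd_eq_unit_mul_pow hn (a * b ^ m) hx (by
    intro π hπ
    have hπp : Prime π := UniqueFactorizationMonoid.irreducible_iff_prime.1 hπ
    obtain ⟨a', b', c, ha', hb', hc, heq⟩ := h π hπ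
    have hfin : ∀ z : D, z ≠ 0 → FiniteMultiplicity π z := fun z hz =>
      FiniteMultiplicity.of_prime_left hπp hz
    have hc0 : c ≠ 0 := by
      rintro rfl
      exact hc (dvd_zero π)
    have h1 : multiplicity π (a' ^ (m + 1) * a) = (m + 1) * multiplicity π a' + multiplicity π a := by
      rw [multiplicity_mul hπp (hfin _ (mul_ne_zero (pow_ne_zero _ ha') ha)),
        FiniteMultiplicity.multiplicity_pow hπp (hfin _ ha')]
    have h2 : multiplicity π (c * (b' ^ (m + 1) * b)) =
        (m + 1) * multiplicity π b' + multiplicity π b := by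
      rw [multiplicity_mul hπp (hfin _ (mul_ne_zero hc0 (mul_ne_zero (pow_ne_zero _ hb') hb))),
        multiplicity_mul hπp (hfin _ (mul_ne_zero (pow_ne_zero _ hb') hb)),
        FiniteMultiplicity.multiplicity_pow hπp (hfin _ hb'), multiplicity_eq_zero.2 hc, zero_add]
    rw [heq, h2] at h1
    rw [multiplicity_mul hπp (hfin _ hx), FiniteMultiplicity.multiplicity_pow hπp (hfin _ hb)]
    -- `(m+1) β' + β = (m+1) α' + α`, so `(m+1) ∣ α + m β`
    have h3 : (m + 1) * multiplicity π a' + (multiplicity π a + m * multiplicity π b) =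
        (m + 1) * (multiplicity π b' + multiplicity π b) := by
      have := h1
      nlinarith [this]
    exact (Nat.dvd_add_right (Dvd.intro _ rfl)).1 (Dvd.intro _ h3.symm))
  refine ⟨w, b, e, hw, hb, he, ?_⟩
  calc b ^ (m + 1) * a = b * (a * b ^ m) := by ring
    _ = b * (e * w ^ (m + 1)) := by rw [hew]
    _ = e * (w ^ (m + 1) * b) := by ring

end Fermat.Agent.S15.ATP
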