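import Fermat.Agent.S15.ATP.Abs.Res
import Fermat.Agent.S15.ATP.Abs.Ufd

/-!
# S15-ATP, abstract layer, file `Line`: the component is an affine line (genus zero)

`C1 = R[x]` and the Gauss valuation of `F1` restricted to `R[x]` is the Gauss valuation of the polynomial ring.
Then `C1 / ϖ = k[X]`, a UFD whose units are the constants.

* `IsLine.exists_red`: `ρ (P(x)) := P mod ϖ`; well defined: `P(x) = Q(x)` implies `(P - Q)(x) / ϖ = 0 ∈ 𝒪1`, so `ϖ` divides all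
  the coefficients of `P - Q` (`prim`).  (Construct it e.g. as the inverse of the isomorphism
  `R[X] ≃ C1` (`aeval x`, injective by `prim` + `⋂ ϖ^m R = 0`; or avoid injectivity: `Ideal.Quotient.lift`/`RingHom.liftOfSurjective`
  along the surjection `R[X] → C1`, the kernel of which is killed by `Polynomial.map (residue R)` by `prim`).
* `pow_of_locPow`: `f = A / B`, `A B ∈ C1` not divisible by `ϖ` (`hC.frac`).  For `π` irreducible in `k[X]` the ideal
  `𝔫 = ρ⁻¹(π)` is maximal and contains `ϖ`; `LocPow` gives `a ∈ 𝒪1`, `c ∉ 𝔫` with `a ^ n f ≡ c`; `a` is a unit of `𝒪1` (otherwise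
  `ρ c = 0`); `a = a' / b'`; then `ρ a' ^ n * ρ A = ρ c * (ρ b' ^ n * ρ B)`.  `ufd_ratio_pow` gives `u v e`; `e = C ē`
  (`Polynomial.isUnit_iff`), lift `ē` to a unit `c₀` of `R`, `u v` to `U V ∈ C1`; `z := V / U`.
-/

set_option autoImplicit false

namespace Fermat.Agent.S15.ATP

open Fermat.Agent.GR.E Fermat.Agent.GS Polynomial

variable {R : Type*} [CommRing R] [IsDomain R] [IsDiscreteValuationRing R]
variable {F1 : Type*} [Field F1] [Algebra R F1]
variable {ϖ : R} {𝒪1 : ValuationSubring F1}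

/-- `C1 = R[x]`, and the Gauss valuation is the Gauss valuation of the polynomial ring. -/
structure IsLine (ϖ : R) (𝒪1 : ValuationSubring F1) (C1 : Subalgebra R F1) (x : F1) : Prop where
  mem : x ∈ C1
  gen : ∀ c ∈ C1, ∃ P : R[X], aeval x P = c
  prim : ∀ P : R[X], aeval x P / algebraMap R F1 ϖ ∈ 𝒪1 → ∀ i, ϖ ∣ P.coeff i

theorem IsLine.exists_red (hϖ : Irreducible ϖ) (hG : GaussRing ϖ 𝒪1) {C1 : Subalgebra R F1}
    (hle : ∀ c ∈ C1, c ∈ 𝒪1) {x : F1} (hx : IsLine ϖ 𝒪1 C1 x) :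
    ∃ ρ : C1 →+* (IsLocalRing.ResidueField R)[X], Function.Surjective ρ ∧
      (∀ c : C1, ρ c = 0 ↔ (c : F1) / algebraMap R F1 ϖ ∈ 𝒪1) ∧
      ∀ r : R, ρ (algebraMap R C1 r) = C (IsLocalRing.residue R r) := by
  have hmemC : ∀ P : R[X], aeval x P ∈ C1 := by
    intro P
    have h1 : aeval x P ∈ Algebra.adjoin R ({x} : Set F1) := by
      rw [Algebra.adjoin_singleton_eq_range_aeval]
      exact ⟨P, rfl⟩
    exact (Algebra.adjoin_le (by simpa using hx.mem) : Algebra.adjoin R ({x} : Set F1) ≤ C1) h1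
  let π : R[X] →+* C1 := ((aeval x : R[X] →ₐ[R] F1).codRestrict C1 hmemC : R[X] →+* C1)
  have hπ : ∀ P : R[X], ((π P : C1) : F1) = aeval x P := fun P => rfl
  have hsurj : Function.Surjective π := by
    intro c
    obtain ⟨P, hP⟩ := hx.gen c c.2
    exact ⟨P, Subtype.ext hP⟩
  let m : R[X] →+* (IsLocalRing.ResidueField R)[X] := Polynomial.mapRingHom (IsLocalRing.residue R)
  have hm0 : ∀ P : R[X], m P = 0 ↔ ∀ i, ϖ ∣ P.coeff i := by
    intro P
    have h1 : ∀ r : R, IsLocalRing.residue R r = 0 ↔ ϖ ∣ r := by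
      intro r
      rw [IsLocalRing.residue_eq_zero_iff, hϖ.maximalIdeal_eq, Ideal.mem_span_singleton]
    constructor
    · intro h i
      rw [← h1]
      have := congrArg (fun Q => Polynomial.coeff Q i) h
      simpa [m] using this
    · intro h
      ext i
      have := (h1 _).2 (h i)
      simpa [m] using this
  have hker : RingHom.ker π ≤ RingHom.ker m := by
    intro P hP
    rw [RingHom.mem_ker] at hP ⊢
    rw [hm0]
    apply hx.prim
    have : aeval x P = 0 := by rw [← hπ, hP]; rfl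
    rw [this, zero_div]
    exact 𝒪1.zero_mem
  let ρ : C1 →+* (IsLocalRing.ResidueField R)[X] := π.liftOfSurjective hsurj ⟨m, hker⟩
  have hρ : ∀ P : R[X], ρ (π P) = m P := fun P =>
    RingHom.liftOfRightInverse_comp_apply π _ _ ⟨m, hker⟩ P
  refine ⟨ρ, ?_, ?_, ?_⟩
  · intro Q
    obtain ⟨P, hP⟩ := Polynomial.map_surjective _ IsLocalRing.residue_surjective Q
    exact ⟨π P, by rw [hρ]; exact hP⟩
  · intro c
    obtain ⟨P, rfl⟩ := hsurj c
    rw [hρ, hm0, hπ]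
    constructor
    · intro h
      obtain ⟨P', rfl⟩ := (Polynomial.C_dvd_iff_dvd_coeff ϖ P).2 h
      rw [map_mul, aeval_C, mul_div_cancel_left₀ _ hG.ne_zero]
      exact hle _ (hmemC P')
    · exact hx.prim P
  · intro r
    have : algebraMap R C1 r = π (C r) := by
      apply Subtype.ext
      rw [hπ, aeval_C]
      rfl
    rw [this, hρ]
    simp [m]

omit [IsDomain R] [IsDiscreteValuationRing R] in
theorem Line_unit_of_not_div (hG : GaussRing ϖ 𝒪1) {y : F1} (hy : y ∈ 𝒪1)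
    (h : y / algebraMap R F1 ϖ ∉ 𝒪1) : y ≠ 0 ∧ y⁻¹ ∈ 𝒪1 := by
  refine ⟨?_, (hG.unif y hy).resolve_left h⟩
  rintro rfl
  apply h
  rw [zero_div]
  exact zero_mem _

theorem pow_of_locPow (hϖ : Irreducible ϖ) (hG : GaussRing ϖ 𝒪1) {C1 : Subalgebra R F1}
    (hC : GoodChart ϖ 𝒪1 C1) {x : F1} (hx : IsLine ϖ 𝒪1 C1 x) {n : ℕ} (hn : 0 < n) {f : F1}
    (hf0 : f ≠ 0) (hf : f ∈ 𝒪1) (hf' : f⁻¹ ∈ 𝒪1) (h : LocPow ϖ 𝒪1 C1 n f) :
    ∃ z : F1, z ≠ 0 ∧ z ∈ 𝒪1 ∧ z⁻¹ ∈ 𝒪1 ∧ ∃ c : R, IsUnit c ∧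
      (z ^ n * f - algebraMap R F1 c) / algebraMap R F1 ϖ ∈ 𝒪1 := by
  classical
  obtain ⟨ρ, hρs, hρ0, hρC⟩ := hx.exists_red hϖ hG hC.le
  set P : F1 := algebraMap R F1 ϖ with hP
  have hP0 : P ≠ 0 := hG.ne_zero
  -- `f = A / B`
  obtain ⟨B, hBC, hBP, hAC⟩ := hC.frac f hf
  obtain ⟨hB0, hBi⟩ := Line_unit_of_not_div hG (hC.le B hBC) hBP
  have hAP : f * B / P ∉ 𝒪1 := by
    intro h1
    apply hBP
    have : B / P = f⁻¹ * (f * B / P) := by field_simp
    rw [this]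
    exact mul_mem hf' h1
  let A' : C1 := ⟨f * B, hAC⟩
  let B' : C1 := ⟨B, hBC⟩
  have hρA : ρ A' ≠ 0 := fun h0 => hAP ((hρ0 A').1 h0)
  have hρB : ρ B' ≠ 0 := fun h0 => hBP ((hρ0 B').1 h0)
  -- the local hypotheses
  have hloc : ∀ π : (IsLocalRing.ResidueField R)[X], Irreducible π →
      ∃ a' b' c : (IsLocalRing.ResidueField R)[X], a' ≠ 0 ∧ b' ≠ 0 ∧ ¬ π ∣ c ∧
        a' ^ n * ρ A' = c * (b' ^ n * ρ B') := by
    intro π hπ
    have hmax : (Ideal.span {π}).IsMaximal :=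
      PrincipalIdealRing.isMaximal_of_irreducible hπ
    have h𝔫 : (Ideal.comap ρ (Ideal.span {π})).IsMaximal :=
      Ideal.comap_isMaximal_of_surjective ρ hρs
    have hϖ𝔫 : algebraMap R C1 ϖ ∈ Ideal.comap ρ (Ideal.span {π}) := by
      rw [Ideal.mem_comap, hρC, (IsLocalRing.residue_eq_zero_iff ϖ).2
        ((IsLocalRing.mem_maximalIdeal ϖ).2 hϖ.not_isUnit), map_zero]
      exact zero_mem _
    obtain ⟨a, ha, c, hc, hac⟩ := h _ h𝔫 hϖ𝔫
    have hcπ : ¬ π ∣ ρ c := by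
      intro h1
      exact hc (Ideal.mem_comap.2 (Ideal.mem_span_singleton.2 h1))
    have haP : a / P ∉ 𝒪1 := by
      intro h1
      apply hcπ
      have h2 : (c : F1) / P ∈ 𝒪1 := by
        have e : (c : F1) / P = a / P * (a ^ (n - 1) * f) - (a ^ n * f - (c : F1)) / P := by
          obtain ⟨m, rfl⟩ : ∃ m, n = m + 1 := ⟨n - 1, by omega⟩
          rw [Nat.add_sub_cancel, pow_succ]
          field_simp
          ring
        rw [e]
        exact sub_mem (mul_mem h1 (mul_mem (pow_mem ha _) hf)) hac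
      rw [(hρ0 c).2 h2]
      exact dvd_zero π
    obtain ⟨ha0, hai⟩ := Line_unit_of_not_div hG ha haP
    obtain ⟨b, hbC, hbP, habC⟩ := hC.frac a ha
    have habP : a * b / P ∉ 𝒪1 := by
      intro h1
      apply hbP
      have : b / P = a⁻¹ * (a * b / P) := by field_simp
      rw [this]
      exact mul_mem hai h1
    let a₁ : C1 := ⟨a * b, habC⟩
    let b₁ : C1 := ⟨b, hbC⟩
    refine ⟨ρ a₁, ρ b₁, ρ c, fun h0 => habP ((hρ0 a₁).1 h0), fun h0 => hbP ((hρ0 b₁).1 h0),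
      hcπ, ?_⟩
    have h3 : ρ (a₁ ^ n * A' - c * (b₁ ^ n * B')) = 0 := by
      rw [hρ0]
      have e : ((a₁ ^ n * A' - c * (b₁ ^ n * B') : C1) : F1) / P =
          b ^ n * B * ((a ^ n * f - (c : F1)) / P) := by
        have e0 : ((a₁ ^ n * A' - c * (b₁ ^ n * B') : C1) : F1) =
            (a * b) ^ n * (f * B) - (c : F1) * (b ^ n * B) := rfl
        rw [e0, mul_pow]
        field_simp
      rw [e]
      exact mul_mem (mul_mem (pow_mem (hC.le b hbC) n) (hC.le B hBC)) hac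
    rw [map_sub, map_mul, map_mul, map_mul, map_pow, map_pow, sub_eq_zero] at h3
    exact h3
  obtain ⟨u, v, e, hu, hv, he, huv⟩ := ufd_ratio_pow hn hρA hρB hloc
  obtain ⟨ē, hē, rfl⟩ := Polynomial.isUnit_iff.1 he
  obtain ⟨c₀, rfl⟩ := IsLocalRing.residue_surjective ē
  have hc₀ : IsUnit c₀ := by
    by_contra hcon
    have : IsLocalRing.residue R c₀ = 0 :=
      (IsLocalRing.residue_eq_zero_iff c₀).2 ((IsLocalRing.mem_maximalIdeal c₀).2 hcon)
    rw [this] at hē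
    exact not_isUnit_zero hē
  obtain ⟨U, rfl⟩ := hρs u
  obtain ⟨V, rfl⟩ := hρs v
  have hUP : (U : F1) / P ∉ 𝒪1 := fun h1 => hu ((hρ0 U).2 h1)
  have hVP : (V : F1) / P ∉ 𝒪1 := fun h1 => hv ((hρ0 V).2 h1)
  obtain ⟨hU0, hUi⟩ := Line_unit_of_not_div hG (hC.le U U.2) hUP
  obtain ⟨hV0, hVi⟩ := Line_unit_of_not_div hG (hC.le V V.2) hVP
  refine ⟨(V : F1) / U, div_ne_zero hV0 hU0, ?_, ?_, c₀, hc₀, ?_⟩
  · rw [div_eq_mul_inv]
    exact mul_mem (hC.le V V.2) hUi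
  · rw [inv_div, div_eq_mul_inv]
    exact mul_mem (hC.le U U.2) hVi
  · have h4 : ρ (V ^ n * A' - algebraMap R C1 c₀ * (U ^ n * B')) = 0 := by
      rw [map_sub, map_mul, map_mul, map_mul, map_pow, map_pow, hρC, sub_eq_zero]
      exact huv
    rw [hρ0] at h4
    have e0 : ((V ^ n * A' - algebraMap R C1 c₀ * (U ^ n * B') : C1) : F1) =
        (V : F1) ^ n * (f * B) - algebraMap R F1 c₀ * ((U : F1) ^ n * B) := rfl
    rw [e0] at h4
    have e1 : (((V : F1) / U) ^ n * f - algebraMap R F1 c₀) / P =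
        ((V : F1) ^ n * (f * B) - algebraMap R F1 c₀ * ((U : F1) ^ n * B)) / P *
          (((U : F1)⁻¹) ^ n * B⁻¹) := by
      rw [div_pow, inv_pow]
      have hUn : (U : F1) ^ n ≠ 0 := pow_ne_zero n hU0
      field_simp
    rw [e1]
    exact mul_mem h4 (mul_mem (pow_mem hUi n) hBi)

end Fermat.Agent.S15.ATP
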