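import Fermat.Agent.S15.ATP.Abs.Multi
import Fermat.Agent.S15.ATP.Abs.Line

/-!
# S15-ATP, abstract layer, file `Main`: THE ABSTRACT CORE

A function of level `q N1` which is a unit at both vertical valuations and whose horizontal divisor is divisible by `n`
is, modulo `ϖ` on the component `𝒪_∞`, a constant times an `n`-th power, provided that all the nodes of the chart are
regular and that the chart of level `N1` is an affine line.
-/

set_option autoImplicit false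

namespace Fermat.Agent.S15.ATP

open Fermat.Agent.GR.E Fermat.Agent.GS Fermat.Agent.GT Fermat.Agent.GT.Loc

variable {R : Type*} [CommRing R] [IsDomain R] [IsDiscreteValuationRing R]
variable {F1 F : Type*} [Field F1] [Field F] [Algebra R F1] [Algebra R F] [Algebra F1 F]
  [IsScalarTower R F1 F]
variable {ϖ : R} {𝒪1 : ValuationSubring F1} {𝒪 : ValuationSubring F} {w : F ≃ₐ[R] F} {q : ℕ}

/-- congruences modulo `ϖ` (helper for `abs_core`): `z ≡ z'`, `y ≡ y'` integral implies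
`z ^ n * y ≡ z' ^ n * y'`. -/
theorem Main_cong {V : ValuationSubring F} {P z z' y y' : F} (hz : z ∈ V) (hz' : z' ∈ V)
    (hy : y ∈ V) (hzz : (z - z') / P ∈ V) (hyy : (y - y') / P ∈ V) (n : ℕ) :
    (z ^ n * y - z' ^ n * y') / P ∈ V := by
  have key : ∀ m : ℕ, (z ^ m - z' ^ m) / P ∈ V := by
    intro m
    induction m with
    | zero =>
      rw [pow_zero, pow_zero, sub_self, zero_div]
      exact V.zero_mem
    | succ m ih =>
      have e : (z ^ (m + 1) - z' ^ (m + 1)) / P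
          = z * ((z ^ m - z' ^ m) / P) + (z - z') / P * z' ^ m := by ring
      rw [e]
      exact V.add_mem _ _ (V.mul_mem _ _ hz ih) (V.mul_mem _ _ hzz (pow_mem hz' m))
  have e : (z ^ n * y - z' ^ n * y') / P
      = (z ^ n - z' ^ n) / P * y + z' ^ n * ((y - y') / P) := by ring
  rw [e]
  exact V.add_mem _ _ (V.mul_mem _ _ (key n) hy) (V.mul_mem _ _ (pow_mem hz' n) hyy)

theorem abs_core (hϖ : Irreducible ϖ) (hq : 1 < q) (T : TowerData ϖ 𝒪1 𝒪 w)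
    {φ : F ≃+* F} (Φ : TowerFrob ϖ 𝒪1 𝒪 w q φ) {t : F1} (Ct : TowerChart ϖ 𝒪1 𝒪 w q t)
    (hφ : φ (algebraMap F1 F t) = algebraMap F1 F t)
    (hreg : ∀ 𝔪 : Ideal (chart R ({algebraMap F1 F t} : Set F)), 𝔪.IsMaximal →
      vert ϖ 𝒪 (chart R ({algebraMap F1 F t} : Set F)) ≤ 𝔪 →
      vert ϖ (opp 𝒪 w) (chart R ({algebraMap F1 F t} : Set F)) ≤ 𝔪 →
      RegNode ϖ 𝒪 (opp 𝒪 w) (chart R ({algebraMap F1 F t} : Set F)) 𝔪)
    {x : F1} (hx : IsLine ϖ 𝒪1 (chart R ({t} : Set F1)) x) {n : ℕ} (hn : 0 < n) {y : F}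
    (hy0 : y ≠ 0) (hy₁ : y ∈ 𝒪) (hy₁' : y⁻¹ ∈ 𝒪) (hy₂ : y ∈ opp 𝒪 w) (hy₂' : y⁻¹ ∈ opp 𝒪 w)
    (hdiv : DivisibleAtPlaces R n y) :
    ∃ z : F, z ≠ 0 ∧ ∃ c : R, IsUnit c ∧
      (z ^ n * y - algebraMap R F c) / algebraMap R F ϖ ∈ 𝒪 := by
  have hC := nodalChart_of_tower hϖ hq T Φ Ct hφ
  have hG₂ := gaussRing_opp (w := w) T.gauss
  obtain ⟨f, hf, hyf⟩ := T.res y hy₁ hy₂
  have hloc := locPow_of_units hϖ T Ct hn hy0 hy₁ hy₁' hy₂ hy₂'
    (fun 𝔪 h𝔪 hϖ𝔪 => exists_unit_at_reg hϖ T.gauss hG₂ hC hreg hn hy0 hy₁ hy₁' hy₂ hy₂' hdiv 𝔪 h𝔪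
      hϖ𝔪) hf hyf
  -- `f` is a unit of `𝒪1`
  have hfu : f ≠ 0 ∧ f⁻¹ ∈ 𝒪1 := by
    have hyP : y / algebraMap R F ϖ ∉ 𝒪 := by
      intro h
      apply T.gauss.inv_not_mem
      have e : (algebraMap R F ϖ)⁻¹ = y⁻¹ * (y / algebraMap R F ϖ) := by
        field_simp
      rw [e]
      exact 𝒪.mul_mem _ _ hy₁' h
    constructor
    · rintro rfl
      apply hyP
      rwa [map_zero, sub_zero] at hyf
    · refine (T.gauss1.unif f hf).resolve_left fun h => hyP ?_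
      have h1 : algebraMap F1 F f / algebraMap R F ϖ ∈ 𝒪 := (T.div_mem_iff f).2 h
      have h2 := 𝒪.add_mem _ _ hyf h1
      rwa [← add_div, sub_add_cancel] at h2
  obtain ⟨z, hz0, hz, hz', c, hc, hzc⟩ := pow_of_locPow hϖ T.gauss1 Ct.good hx hn hfu.1 hf hfu.2 hloc
  refine ⟨algebraMap F1 F z, (map_ne_zero _).2 hz0, c, hc, ?_⟩
  have h1 : (algebraMap F1 F z ^ n * y - algebraMap F1 F z ^ n * algebraMap F1 F f) /
      algebraMap R F ϖ ∈ 𝒪 :=
    Main_cong ((T.comap z).2 hz) ((T.comap z).2 hz) hy₁ (by rw [sub_self, zero_div]; exact 𝒪.zero_mem)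
      hyf n
  have h2 : (algebraMap F1 F z ^ n * algebraMap F1 F f - algebraMap R F c) / algebraMap R F ϖ ∈ 𝒪 := by
    have := (T.div_mem_iff (z ^ n * f - algebraMap R F1 c)).2 hzc
    rwa [map_sub, map_mul, map_pow, ← IsScalarTower.algebraMap_apply] at this
  have h3 := 𝒪.add_mem _ _ h1 h2
  rwa [← add_div, sub_add_sub_cancel] at h3

end Fermat.Agent.S15.ATP
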