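import Fermat.Agent.GT.Loc.Prin
import Fermat.Agent.GT.Abs.LocGen
import Fermat.Agent.GS.Abs.Basic

/-!
# S15-ATP, abstract layer, file `Multi`: a nodal chart all of whose nodes are regular

`R` a DVR with uniformizer `ϖ`, `F` a field over `R`, `𝒪₁ 𝒪₂` the two Gauss valuation subrings (language of
`GS/Abs`), `C` a `GS.NodalChart`.  We translate to the language of `GT/Abs` (family `fam 𝒪₁ 𝒪₂ : Fin 2 → _`,
`vertI`, `MultiChart`, `PrincipalAt`) and apply `GT.exists_locGen`.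

* `mem_nonunits_iff_div`: `x ∈ 𝔪(𝒪) ↔ x / ϖ ∈ 𝒪` (`GaussRing.unif`, `GaussRing.mem`, `GaussRing.inv_not_mem`;
  compare `GT.Loc.Prin_div_mem_of_gauss`).
* `vertI_eq_vert`: both are spans of the same set.
* `regAt_fam`: if only one of the two vertical primes is contained in `𝔪`: `GT.Loc.prinAt_of_single`
  (`X = ϖ`); if both: `RegNode` gives `x y = ϖ G`, `G ∉ 𝔪`: `GT.Loc.prinAt_of_mul_eq`.  At least one of them is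
  contained in `𝔪` (`GS.vert_le_or_vert_le`).  `GT.Loc.PrinAt` and `GT.PrincipalAt` are the same (`Iff.rfl`).
-/

set_option autoImplicit false

namespace Fermat.Agent.S15.ATP

open Fermat.Agent.GR.E Fermat.Agent.GS Fermat.Agent.GT Fermat.Agent.GT.Loc

variable {R : Type*} [CommRing R] [IsDomain R] [IsDiscreteValuationRing R]
variable {F : Type*} [Field F] [Algebra R F]
variable {ϖ : R} {𝒪 𝒪₁ 𝒪₂ : ValuationSubring F}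

/-- the family of the two vertical valuation rings. -/
def fam (𝒪₁ 𝒪₂ : ValuationSubring F) : Fin 2 → ValuationSubring F := ![𝒪₁, 𝒪₂]

theorem mem_nonunits_iff_div (hG : GaussRing ϖ 𝒪) {x : F} :
    x ∈ 𝒪.nonunits ↔ x / algebraMap R F ϖ ∈ 𝒪 := by
  have hP0 := hG.ne_zero
  have hvP0 : 𝒪.valuation (algebraMap R F ϖ) ≠ 0 := (𝒪.valuation.ne_zero_iff).2 hP0
  have hvP : 𝒪.valuation (algebraMap R F ϖ) < 1 := by
    by_contra hcon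
    rw [not_lt] at hcon
    apply hG.inv_not_mem
    rw [← 𝒪.valuation_le_one_iff, map_inv₀]
    exact inv_le_one_of_one_le₀ hcon
  constructor
  · intro hx
    have hlt : 𝒪.valuation x < 1 := (𝒪.mem_nonunits_iff).1 hx
    rcases hG.unif x ((𝒪.valuation_le_one_iff x).1 hlt.le) with h | h
    · exact h
    · by_cases hx0 : x = 0
      · rw [hx0, zero_div]
        exact 𝒪.zero_mem
      · exfalso
        have h1 : 𝒪.valuation x⁻¹ ≤ 1 := (𝒪.valuation_le_one_iff _).2 h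
        have h2 : 𝒪.valuation x * 𝒪.valuation x⁻¹ = 1 := by
          rw [← map_mul, mul_inv_cancel₀ hx0, map_one]
        have h3 : 𝒪.valuation x * 𝒪.valuation x⁻¹ < 1 := mul_lt_one_of_lt_of_le hlt h1
        rw [h2] at h3
        exact lt_irrefl _ h3
  · intro hx
    rw [← 𝒪.valuation_le_one_iff, map_div₀, div_le_iff₀ (zero_lt_iff.2 hvP0), one_mul] at hx
    exact (𝒪.mem_nonunits_iff).2 (lt_of_le_of_lt hx hvP)

theorem Multi_gauss_fam (hG₁ : GaussRing ϖ 𝒪₁) (hG₂ : GaussRing ϖ 𝒪₂) (i : Fin 2) :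
    GaussRing ϖ (fam 𝒪₁ 𝒪₂ i) := by
  fin_cases i
  · exact hG₁
  · exact hG₂

theorem vertFam_fam (hG₁ : GaussRing ϖ 𝒪₁) (hG₂ : GaussRing ϖ 𝒪₂) : VertFam ϖ (fam 𝒪₁ 𝒪₂) := by
  refine ⟨hG₁.ne_zero, fun i => ?_, 1, fun i x hx => ?_⟩
  · rw [mem_nonunits_iff_div (Multi_gauss_fam hG₁ hG₂ i), div_self hG₁.ne_zero]
    exact (fam 𝒪₁ 𝒪₂ i).one_mem
  · rw [pow_one]
    exact (mem_nonunits_iff_div (Multi_gauss_fam hG₁ hG₂ i)).1 hx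

theorem vertI_eq_vert (hG : GaussRing ϖ 𝒪) (C : Subalgebra R F) : vertI 𝒪 C = vert ϖ 𝒪 C := by
  unfold vertI vert
  congr 1
  ext x
  exact mem_nonunits_iff_div hG

theorem multiChart_fam (hG₁ : GaussRing ϖ 𝒪₁) (hG₂ : GaussRing ϖ 𝒪₂) {C : Subalgebra R F}
    (hC : NodalChart ϖ 𝒪₁ 𝒪₂ C) : MultiChart ϖ (fam 𝒪₁ 𝒪₂) C := by
  refine ⟨⟨fun i x hx => ?_, fun x hx h => hC.sat x hx (h 0) (h 1), hC.closed⟩, hC.noeth,
    fun i x hx => ?_, fun i => ?_, fun i j hij => ?_⟩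
  · fin_cases i
    · exact hC.le₁ x hx
    · exact hC.le₂ x hx
  · fin_cases i
    · obtain ⟨b, hb, hb', hxb⟩ := hC.frac₁ x hx
      exact ⟨b, hb, fun h => hb' ((mem_nonunits_iff_div hG₁).1 h), hxb⟩
    · obtain ⟨b, hb, hb', hxb⟩ := hC.frac₂ x hx
      exact ⟨b, hb, fun h => hb' ((mem_nonunits_iff_div hG₂).1 h), hxb⟩
  · fin_cases i
    · show IsDedekindDomain (C ⧸ vertI 𝒪₁ C)
      rw [vertI_eq_vert hG₁]
      exact hC.ded₁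
    · show IsDedekindDomain (C ⧸ vertI 𝒪₂ C)
      rw [vertI_eq_vert hG₂]
      exact hC.ded₂
  · fin_cases i <;> fin_cases j
    · exact absurd rfl hij
    · obtain ⟨e, he, h2, h1⟩ := hC.sep₁
      exact ⟨e, he, (mem_nonunits_iff_div hG₂).2 h2, fun h => h1 ((mem_nonunits_iff_div hG₁).1 h)⟩
    · obtain ⟨e, he, h1, h2⟩ := hC.sep₂
      exact ⟨e, he, (mem_nonunits_iff_div hG₁).2 h1, fun h => h2 ((mem_nonunits_iff_div hG₂).1 h)⟩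
    · exact absurd rfl hij

theorem regAt_fam (hϖ : Irreducible ϖ) (hG₁ : GaussRing ϖ 𝒪₁) (hG₂ : GaussRing ϖ 𝒪₂)
    {C : Subalgebra R F} (hC : NodalChart ϖ 𝒪₁ 𝒪₂ C)
    (hreg : ∀ 𝔪 : Ideal C, 𝔪.IsMaximal → vert ϖ 𝒪₁ C ≤ 𝔪 → vert ϖ 𝒪₂ C ≤ 𝔪 →
      RegNode ϖ 𝒪₁ 𝒪₂ C 𝔪)
    (𝔪 : Ideal C) (h𝔪 : 𝔪.IsMaximal) (hϖ𝔪 : algebraMap R C ϖ ∈ 𝔪) :
    ∃ i, vertI (fam 𝒪₁ 𝒪₂ i) C ≤ 𝔪 ∧ ∃ X : C, PrincipalAt (fam 𝒪₁ 𝒪₂ i) C 𝔪 X := by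
  have hpr : 𝔪.IsPrime := h𝔪.isPrime
  have hV := vertFam_fam hG₁ hG₂
  have hS := (multiChart_fam hG₁ hG₂ hC).toSatChartI
  have e1 : vertI (fam 𝒪₁ 𝒪₂ 0) C = vert ϖ 𝒪₁ C := vertI_eq_vert hG₁ C
  have e2 : vertI (fam 𝒪₁ 𝒪₂ 1) C = vert ϖ 𝒪₂ C := vertI_eq_vert hG₂ C
  have hne0 : ∀ i : Fin 2, i ≠ 0 → i = 1 := by decide
  have hne1 : ∀ i : Fin 2, i ≠ 1 → i = 0 := by decide
  by_cases h1 : vert ϖ 𝒪₁ C ≤ 𝔪
  · by_cases h2 : vert ϖ 𝒪₂ C ≤ 𝔪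
    · obtain ⟨x, y, G, hx, hy, hG, hxy⟩ := hreg 𝔪 h𝔪 h1 h2
      refine ⟨0, e1.le.trans h1, x, ?_⟩
      refine prinAt_of_mul_eq hV hS 𝔪 0 x y G ((mem_nonunits_iff_div hG₁).2 hx) hG hxy ?_ ?_
      · intro f hf
        have hf' : f / algebraMap R F ϖ ∈ 𝒪₁ := (mem_nonunits_iff_div hG₁).1 hf
        have : f * (y : F) / algebraMap R F ϖ = f / algebraMap R F ϖ * (y : F) := by ring
        rw [this]
        exact 𝒪₁.mul_mem _ _ hf' (hS.le 0 _ y.2)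
      · intro i hi
        rw [hne0 i hi]
        exact hy
    · refine ⟨0, e1.le.trans h1, algebraMap R C ϖ, prinAt_of_single hV hS 𝔪 0 hG₁ ?_⟩
      intro i hi
      rw [hne0 i hi, e2]
      exact h2
  · have h2 : vert ϖ 𝒪₂ C ≤ 𝔪 :=
      (vert_le_or_vert_le hG₁ hC.toSatChart2 𝔪 hϖ𝔪).resolve_left h1
    refine ⟨1, e2.le.trans h2, algebraMap R C ϖ, prinAt_of_single hV hS 𝔪 1 hG₂ ?_⟩
    intro i hi
    rw [hne1 i hi, e1]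
    exact h1

/-- LOCAL GENERATORS: a function which is a unit at both vertical valuations and whose horizontal
divisor is divisible by `n` is, at every closed point of the special fibre, a unit times an `n`-th
power. -/
theorem exists_unit_at_reg (hϖ : Irreducible ϖ) (hG₁ : GaussRing ϖ 𝒪₁) (hG₂ : GaussRing ϖ 𝒪₂)
    {C : Subalgebra R F} (hC : NodalChart ϖ 𝒪₁ 𝒪₂ C)
    (hreg : ∀ 𝔪 : Ideal C, 𝔪.IsMaximal → vert ϖ 𝒪₁ C ≤ 𝔪 → vert ϖ 𝒪₂ C ≤ 𝔪 →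
      RegNode ϖ 𝒪₁ 𝒪₂ C 𝔪)
    {n : ℕ} (hn : 0 < n) {y : F} (hy0 : y ≠ 0) (hy₁ : y ∈ 𝒪₁) (hy₁' : y⁻¹ ∈ 𝒪₁) (hy₂ : y ∈ 𝒪₂)
    (hy₂' : y⁻¹ ∈ 𝒪₂) (hdiv : DivisibleAtPlaces R n y)
    (𝔪 : Ideal C) (h𝔪 : 𝔪.IsMaximal) (hϖ𝔪 : algebraMap R C ϖ ∈ 𝔪) :
    ∃ a : F, a ≠ 0 ∧ ∃ h : a ^ n * y ∈ C, (⟨a ^ n * y, h⟩ : C) ∉ 𝔪 := by
  have hw : ∀ i, y ∈ fam 𝒪₁ 𝒪₂ i := by
    intro i
    fin_cases i
    · exact hy₁
    · exact hy₂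
  have hw' : ∀ i, y⁻¹ ∈ fam 𝒪₁ 𝒪₂ i := by
    intro i
    fin_cases i
    · exact hy₁'
    · exact hy₂'
  exact exists_locGen hϖ (vertFam_fam hG₁ hG₂) (multiChart_fam hG₁ hG₂ hC) hn hw hw' hy0 hdiv 𝔪 h𝔪
    hϖ𝔪 (regAt_fam hϖ hG₁ hG₂ hC hreg 𝔪 h𝔪 hϖ𝔪)

end Fermat.Agent.S15.ATP
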