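import Fermat.Agent.GS.Tower.Main

/-!
# S15-ATP, abstract layer, file `Res`: from level `q N1` to level `N1` on the component `𝒪_∞`

Setting of `GS/Tower`.  `C1 = chart R {t}` (level `N1`, a `GoodChart`), `C = chart R {algebraMap t}` (level `q N1`),
`𝔭₁ = vert ϖ 𝒪 C`.  The map `C1 → C / 𝔭₁` is surjective (`TowerChart.exists_sub_div_mem`) with kernel `ϖ C1`
(`T.div_mem_iff`, `Ct.good.sat`), see the proof of `TowerChart.ded₁`.

* `exists_max_above`: `𝔪 := {z ∈ C : ∃ g ∈ 𝔫, z ≡ g}`.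
* `locPow_of_units`: given `𝔫`, take `𝔪` above; `a ^ n * y =: c ∈ C ∖ 𝔪`.  `y` is a unit at both valuations and
  `C ⊆ 𝒪 ∩ opp 𝒪 w`, so `a ^ n` and hence `a` lies in `𝒪` and in `opp 𝒪 w` (valuation rings are integrally
  closed: `ValuationSubring.mem_of_pow_mem`-type argument: if `a ∉ 𝒪` then `a⁻¹ ∈ 𝔪(𝒪)` ...).  `T.res` gives `a₁ ∈ 𝒪1`,
  `a ≡ a₁`; `Ct.exists_sub_div_mem` gives `c₁ ∈ C1`, `c ≡ c₁`, `c₁ ∉ 𝔫`.  Then `a₁ ^ n * f ≡ a ^ n * y = c ≡ c₁`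
  in `𝒪`; descend to `𝒪1` by `T.div_mem_iff`.
-/

set_option autoImplicit false

namespace Fermat.Agent.S15.ATP

open Fermat.Agent.GR.E Fermat.Agent.GS

/-- abstract form of `exists_max_above`. -/
theorem Res_max_above {A B : Type*} [CommRing A] [CommRing B] (g : A →+* B) (P : Ideal B)
    (hsurj : ∀ z : B, ∃ c : A, z - g c ∈ P) (𝔫 : Ideal A) (h𝔫 : 𝔫.IsMaximal)
    (hker : ∀ c : A, g c ∈ P → c ∈ 𝔫) :
    ∃ 𝔪 : Ideal B, 𝔪.IsMaximal ∧ ∀ (z : B) (c : A), z - g c ∈ P → (z ∈ 𝔪 ↔ c ∈ 𝔫) := by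
  set φ : A →+* B ⧸ P := (Ideal.Quotient.mk P).comp g with hφ
  have hφs : Function.Surjective φ := by
    intro y
    obtain ⟨z, rfl⟩ := Ideal.Quotient.mk_surjective y
    obtain ⟨c, hc⟩ := hsurj z
    exact ⟨c, ((Ideal.Quotient.eq).mpr hc).symm⟩
  have hcm : Ideal.comap φ (Ideal.map φ 𝔫) = 𝔫 := by
    rw [Ideal.comap_map_of_surjective φ hφs]
    refine sup_eq_left.mpr ?_
    intro c hc
    rw [Ideal.mem_comap, Ideal.mem_bot] at hc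
    exact hker c (Ideal.Quotient.eq_zero_iff_mem.mp hc)
  have hmax : (Ideal.map φ 𝔫).IsMaximal := by
    rcases Ideal.map_eq_top_or_isMaximal_of_surjective φ hφs h𝔫 with h | h
    · exfalso
      rw [h, Ideal.comap_top] at hcm
      exact h𝔫.ne_top hcm.symm
    · exact h
  refine ⟨Ideal.comap (Ideal.Quotient.mk P) (Ideal.map φ 𝔫),
    Ideal.comap_isMaximal_of_surjective _ Ideal.Quotient.mk_surjective, ?_⟩
  intro z c hzc
  have h1 : Ideal.Quotient.mk P z = φ c := (Ideal.Quotient.eq).mpr hzc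
  rw [Ideal.mem_comap, h1, ← Ideal.mem_comap, hcm]

variable {R : Type*} [CommRing R] [IsDomain R] [IsDiscreteValuationRing R]
variable {F1 F : Type*} [Field F1] [Field F] [Algebra R F1] [Algebra R F] [Algebra F1 F]
  [IsScalarTower R F1 F]
variable {ϖ : R} {𝒪1 : ValuationSubring F1} {𝒪 : ValuationSubring F} {w : F ≃ₐ[R] F} {q : ℕ}

/-- modulo `ϖ`, `f` is at every closed point of the special fibre of `C1` a unit times an `n`-th
power. -/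
def LocPow (ϖ : R) (𝒪1 : ValuationSubring F1) (C1 : Subalgebra R F1) (n : ℕ) (f : F1) : Prop :=
  ∀ 𝔫 : Ideal C1, 𝔫.IsMaximal → algebraMap R C1 ϖ ∈ 𝔫 →
    ∃ a ∈ 𝒪1, ∃ c : C1, c ∉ 𝔫 ∧ (a ^ n * f - (c : F1)) / algebraMap R F1 ϖ ∈ 𝒪1

theorem exists_max_above (hϖ : Irreducible ϖ) (T : TowerData ϖ 𝒪1 𝒪 w) {t : F1}
    (Ct : TowerChart ϖ 𝒪1 𝒪 w q t) (𝔫 : Ideal (chart R ({t} : Set F1))) (h𝔫 : 𝔫.IsMaximal)
    (hϖ𝔫 : algebraMap R (chart R ({t} : Set F1)) ϖ ∈ 𝔫) :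
    ∃ 𝔪 : Ideal (chart R ({algebraMap F1 F t} : Set F)), 𝔪.IsMaximal ∧
      algebraMap R (chart R ({algebraMap F1 F t} : Set F)) ϖ ∈ 𝔪 ∧
      ∀ (z : chart R ({algebraMap F1 F t} : Set F)) (g : chart R ({t} : Set F1)),
        ((z : F) - algebraMap F1 F (g : F1)) / algebraMap R F ϖ ∈ 𝒪 → (z ∈ 𝔪 ↔ g ∈ 𝔫) := by
  let g : chart R ({t} : Set F1) →+* chart R ({algebraMap F1 F t} : Set F) :=
    { toFun := fun c => ⟨algebraMap F1 F c, algebraMap_mem_chart_singleton c.2⟩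
      map_one' := Subtype.ext (map_one _)
      map_mul' := fun a b => Subtype.ext (map_mul _ _ _)
      map_zero' := Subtype.ext (map_zero _)
      map_add' := fun a b => Subtype.ext (map_add _ _ _) }
  have hs : ∀ z : chart R ({algebraMap F1 F t} : Set F), ∃ c : chart R ({t} : Set F1),
      z - g c ∈ vert ϖ 𝒪 (chart R ({algebraMap F1 F t} : Set F)) := by
    intro z
    obtain ⟨c, hc, hzc⟩ := Ct.exists_sub_div_mem hϖ T z.2
    exact ⟨⟨c, hc⟩, (mem_vert (Ct.le₁ T) _).mpr hzc⟩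
  have hk : ∀ c : chart R ({t} : Set F1),
      g c ∈ vert ϖ 𝒪 (chart R ({algebraMap F1 F t} : Set F)) → c ∈ 𝔫 := by
    intro c hc
    rw [mem_vert (Ct.le₁ T)] at hc
    have hc' : algebraMap F1 F c / algebraMap R F ϖ ∈ 𝒪 := hc
    rw [T.div_mem_iff] at hc'
    have h1 : c = ⟨_, Ct.good.sat c c.2 hc'⟩ * algebraMap R (chart R ({t} : Set F1)) ϖ := by
      apply Subtype.ext
      show (c : F1) = (c : F1) / algebraMap R F1 ϖ * algebraMap R F1 ϖ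
      exact (div_mul_cancel₀ _ T.gauss1.ne_zero).symm
    rw [h1]
    exact 𝔫.mul_mem_left _ hϖ𝔫
  obtain ⟨𝔪, h𝔪, h⟩ := Res_max_above g (vert ϖ 𝒪 (chart R ({algebraMap F1 F t} : Set F))) hs 𝔫 h𝔫 hk
  have h' : ∀ (z : chart R ({algebraMap F1 F t} : Set F)) (c : chart R ({t} : Set F1)),
      ((z : F) - algebraMap F1 F (c : F1)) / algebraMap R F ϖ ∈ 𝒪 → (z ∈ 𝔪 ↔ c ∈ 𝔫) := by
    intro z c hzc
    exact h z c ((mem_vert (Ct.le₁ T) _).mpr hzc)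
  refine ⟨𝔪, h𝔪, ?_, h'⟩
  refine (h' _ (algebraMap R (chart R ({t} : Set F1)) ϖ) ?_).mpr hϖ𝔫
  have h0 : ((algebraMap R (chart R ({algebraMap F1 F t} : Set F)) ϖ :
      chart R ({algebraMap F1 F t} : Set F)) : F) -
      algebraMap F1 F ((algebraMap R (chart R ({t} : Set F1)) ϖ : chart R ({t} : Set F1)) : F1)
      = 0 := by
    show algebraMap R F ϖ - algebraMap F1 F (algebraMap R F1 ϖ) = 0
    rw [← IsScalarTower.algebraMap_apply, sub_self]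
  rw [h0, zero_div]
  exact zero_mem _

/-- a valuation ring is integrally closed (power form). -/
theorem Res_mem_of_pow_mem {K : Type*} [Field K] (V : ValuationSubring K) {n : ℕ} (hn : 0 < n)
    {a : K} (h : a ^ n ∈ V) : a ∈ V := by
  rcases V.mem_or_inv_mem a with ha | ha
  · exact ha
  · by_cases ha0 : a = 0
    · rw [ha0]; exact zero_mem _
    have : a = a ^ n * a⁻¹ ^ (n - 1) := by
      obtain ⟨m, rfl⟩ : ∃ m, n = m + 1 := ⟨n - 1, by omega⟩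
      rw [Nat.add_sub_cancel, pow_succ, inv_pow]
      field_simp
    rw [this]
    exact mul_mem h (pow_mem ha _)

/-- congruences modulo `π` in a valuation ring: powers. -/
theorem Res_cong_pow {K : Type*} [Field K] (V : ValuationSubring K) (π : K) {a b : K}
    (ha : a ∈ V) (hb : b ∈ V) (h : (a - b) / π ∈ V) (n : ℕ) : (a ^ n - b ^ n) / π ∈ V := by
  induction n with
  | zero => simp
  | succ n ih =>
    have : (a ^ (n + 1) - b ^ (n + 1)) / π = a ^ n * ((a - b) / π) + (a ^ n - b ^ n) / π * b := by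
      ring
    rw [this]
    exact add_mem (mul_mem (pow_mem ha n) h) (mul_mem ih hb)

theorem locPow_of_units (hϖ : Irreducible ϖ) (T : TowerData ϖ 𝒪1 𝒪 w) {t : F1}
    (Ct : TowerChart ϖ 𝒪1 𝒪 w q t) {n : ℕ} (hn : 0 < n) {y : F} (hy0 : y ≠ 0)
    (hy₁ : y ∈ 𝒪) (hy₁' : y⁻¹ ∈ 𝒪) (hy₂ : y ∈ opp 𝒪 w) (hy₂' : y⁻¹ ∈ opp 𝒪 w)
    (hloc : ∀ 𝔪 : Ideal (chart R ({algebraMap F1 F t} : Set F)), 𝔪.IsMaximal →
      algebraMap R (chart R ({algebraMap F1 F t} : Set F)) ϖ ∈ 𝔪 →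
      ∃ a : F, a ≠ 0 ∧ ∃ h : a ^ n * y ∈ chart R ({algebraMap F1 F t} : Set F),
        (⟨a ^ n * y, h⟩ : chart R ({algebraMap F1 F t} : Set F)) ∉ 𝔪)
    {f : F1} (hf : f ∈ 𝒪1) (hyf : (y - algebraMap F1 F f) / algebraMap R F ϖ ∈ 𝒪) :
    LocPow ϖ 𝒪1 (chart R ({t} : Set F1)) n f := by
  intro 𝔫 h𝔫 hϖ𝔫
  obtain ⟨𝔪, h𝔪, hϖ𝔪, hiff⟩ := exists_max_above hϖ T Ct 𝔫 h𝔫 hϖ𝔫
  obtain ⟨a, ha0, hc, hc𝔪⟩ := hloc 𝔪 h𝔪 hϖ𝔪
  have han : a ^ n = a ^ n * y * y⁻¹ := by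
    rw [mul_assoc, mul_inv_cancel₀ hy0, mul_one]
  have ha₁ : a ∈ 𝒪 := by
    refine Res_mem_of_pow_mem 𝒪 hn ?_
    rw [han]
    exact mul_mem (Ct.le₁ T _ hc) hy₁'
  have ha₂ : a ∈ opp 𝒪 w := by
    refine Res_mem_of_pow_mem (opp 𝒪 w) hn ?_
    rw [han]
    exact mul_mem (Ct.le₂ T _ hc) hy₂'
  obtain ⟨a₁, ha₁', haa⟩ := T.res a ha₁ ha₂
  obtain ⟨c₁, hc₁, hcc⟩ := Ct.exists_sub_div_mem hϖ T hc
  refine ⟨a₁, ha₁', ⟨c₁, hc₁⟩, ?_, ?_⟩
  · intro h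
    exact hc𝔪 ((hiff ⟨a ^ n * y, hc⟩ ⟨c₁, hc₁⟩ hcc).mpr h)
  · rw [← T.div_mem_iff, map_sub, map_mul, map_pow]
    have hA : algebraMap F1 F a₁ ∈ 𝒪 := (T.comap a₁).mpr ha₁'
    have hF : algebraMap F1 F f ∈ 𝒪 := (T.comap f).mpr hf
    have hpow := Res_cong_pow 𝒪 (algebraMap R F ϖ) ha₁ hA haa n
    have : (algebraMap F1 F a₁ ^ n * algebraMap F1 F f - algebraMap F1 F c₁) / algebraMap R F ϖ
        = -((a ^ n - algebraMap F1 F a₁ ^ n) / algebraMap R F ϖ) * algebraMap F1 F f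
          - a ^ n * ((y - algebraMap F1 F f) / algebraMap R F ϖ)
          + (a ^ n * y - algebraMap F1 F c₁) / algebraMap R F ϖ := by
      ring
    rw [this]
    exact add_mem (sub_mem (mul_mem (neg_mem hpow) hF) (mul_mem (pow_mem ha₁ n) hyf)) hcc

end Fermat.Agent.S15.ATP
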